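import Fermat.Agent.S14.ClassZeta.PrinSum
import Fermat.Agent.S14.Analytic.Basic

/-!
# S14 / C3 / Z4 : partial zeta of a class as a sum over principal ideals
-/

set_option autoImplicit false

namespace Fermat.Agent.S14.ClassZeta

open NumberField Ideal nonZeroDivisors

variable (K : Type*) [Field K] [NumberField K]

/-- `I ↦ J * I` from the ideals of class `C` to the principal ideals divisible by `J`. -/
noncomputable def classEquiv (C : ClassGroup (𝓞 K)) (J : (Ideal (𝓞 K))⁰)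
    (hJ : ClassGroup.mk0 J = C⁻¹) :
    {I : (Ideal (𝓞 K))⁰ // ClassGroup.mk0 I = C} ≃
      {I : (Ideal (𝓞 K))⁰ // (J : Ideal (𝓞 K)) ∣ I ∧ (I : Ideal (𝓞 K)).IsPrincipal} :=
  (((Equiv.dvd J).subtypeEquiv (p := fun I => ClassGroup.mk0 I = C)
      (q := fun I' => ((I'.1 : (Ideal (𝓞 K))⁰) : Ideal (𝓞 K)).IsPrincipal) (fun I ↦ by
        rw [← ClassGroup.mk0_eq_one_iff (SetLike.coe_mem _)]
        simp_rw [Equiv.dvd_apply, Submonoid.coe_mul, ← Submonoid.mul_def, _root_.map_mul, hJ,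
          inv_mul_eq_one, eq_comm])).trans
    (Equiv.subtypeSubtypeEquivSubtypeInter (fun I : (Ideal (𝓞 K))⁰ ↦ J ∣ I)
      (fun I => (I : Ideal (𝓞 K)).IsPrincipal))).trans
    (Equiv.subtypeEquivRight fun I => by rw [nonZeroDivisors_dvd_iff_dvd_coe])

theorem classEquiv_apply (C : ClassGroup (𝓞 K)) (J : (Ideal (𝓞 K))⁰)
    (hJ : ClassGroup.mk0 J = C⁻¹) (I : {I : (Ideal (𝓞 K))⁰ // ClassGroup.mk0 I = C}) :
    ((classEquiv K C J hJ I).1 : (Ideal (𝓞 K))⁰) = J * I.1 := rfl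

theorem partialZeta_eq (C : ClassGroup (𝓞 K)) (J : (Ideal (𝓞 K))⁰)
    (hJ : ClassGroup.mk0 J = C⁻¹) (s : ℝ) :
    partialZeta K C s = (absNorm (J : Ideal (𝓞 K)) : ℝ) ^ s * prinSum K J s := by
  have hJ0 : (0 : ℝ) < absNorm (J : Ideal (𝓞 K)) :=
    Nat.cast_pos.mpr (absNorm_pos_of_nonZeroDivisors J)
  unfold partialZeta prinSum
  rw [← (classEquiv K C J hJ).tsum_eq, ← tsum_mul_left]
  refine tsum_congr fun I => ?_
  rw [classEquiv_apply, Submonoid.coe_mul, _root_.map_mul, Nat.cast_mul,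
    Real.mul_rpow hJ0.le (Nat.cast_nonneg _), ← mul_assoc, ← Real.rpow_add hJ0, add_neg_cancel,
    Real.rpow_zero, one_mul]

theorem prinSum_le (J : (Ideal (𝓞 K))⁰) {s : ℝ} (hs : 1 < s) :
    prinSum K J s ≤ ∑' I : (Ideal (𝓞 K))⁰, (absNorm (I : Ideal (𝓞 K)) : ℝ) ^ (-s) := by
  have h : Summable fun I : (Ideal (𝓞 K))⁰ => (absNorm (I : Ideal (𝓞 K)) : ℝ) ^ (-s) :=
    Analytic.summable_term K hs
  exact Summable.tsum_subtype_le _
    {I : (Ideal (𝓞 K))⁰ | (J : Ideal (𝓞 K)) ∣ I ∧ (I : Ideal (𝓞 K)).IsPrincipal}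
    (fun I => (Analytic.term_pos K s I).le) h

/-- from Mathlib's residue theorem + monotonicity in `s` -/
theorem exists_sub_one_mul_tsum_le :
    ∃ B : ℝ, ∀ s : ℝ, 1 < s → s ≤ 2 →
      (s - 1) * ∑' I : (Ideal (𝓞 K))⁰, (absNorm (I : Ideal (𝓞 K)) : ℝ) ^ (-s) ≤ B :=
  Analytic.exists_sub_one_mul_zetaSum_le K

end Fermat.Agent.S14.ClassZeta
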