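import Mathlib

/-!
# S14 / C3 : definitions for the smoothed class zeta comparison

`tent`, the unit-lattice coordinates `cc`, the weight `W` and the summand `F`.
Owner: helper185.
-/

set_option autoImplicit false

namespace Fermat.Agent.S14.ClassZeta

open NumberField NumberField.Units NumberField.mixedEmbedding NumberField.InfinitePlace
open Ideal nonZeroDivisors

/-- The tent function `max 0 (1 - |t|)`. -/
noncomputable def tent (t : ℝ) : ℝ := max 0 (1 - |t|)

variable (K : Type*) [Field K] [NumberField K]

/-- The real basis of `logSpace K` given by the logarithms of the fundamental units. -/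
noncomputable def logBasis :
    Module.Basis (Fin (rank K)) ℝ (dirichletUnitTheorem.logSpace K) :=
  basisOfIsMaxRank (isMaxRank_fundSystem K)

/-- Coordinates of `logMap x` in the basis of fundamental units. -/
noncomputable def cc (x : K) (i : Fin (rank K)) : ℝ :=
  (logBasis K).repr (logMap (mixedEmbedding K x)) i

/-- The weight: a Lipschitz partition of unity for the action of the units. -/
noncomputable def W (x : K) : ℝ := ∏ i, tent (cc K x i)

/-- absolute norm of an algebraic integer, as a real number. -/
noncomputable def nrm (x : 𝓞 K) : ℝ := ((Algebra.norm ℤ x).natAbs : ℝ)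

/-- The summand. Note `F s 0 = 0` for `s ≠ 0`. -/
noncomputable def F (s : ℝ) (x : 𝓞 K) : ℝ := W K (x : K) * nrm K x ^ (-s)

/-- The partial zeta function of an ideal class. -/
noncomputable def partialZeta (C : ClassGroup (𝓞 K)) (s : ℝ) : ℝ :=
  ∑' I : {I : (Ideal (𝓞 K))⁰ // ClassGroup.mk0 I = C}, (absNorm (I.1 : Ideal (𝓞 K)) : ℝ) ^ (-s)

end Fermat.Agent.S14.ClassZeta
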