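/-
S14 / C3, task S14-Z5 (helper214): the ratio estimate
`|F s (β+h) - F s β| ≤ A (G β + G (β+h))`.
Self-contained on top of `ClassZeta/Defs.lean`; private helper lemmas live in the
sub-namespace `Ratio` (primed names, no clash with Tent.lean / UnitSum.lean).
-/
import Fermat.Agent.S14.ClassZeta.Defs

set_option autoImplicit false

namespace Fermat.Agent.S14.ClassZeta

open NumberField NumberField.Units NumberField.mixedEmbedding NumberField.InfinitePlace
open Ideal nonZeroDivisors Module NumberField.Units.dirichletUnitTheorem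

namespace Ratio

/-! ### real analysis helpers -/

theorem tent_nonneg' (t : ℝ) : 0 ≤ tent t := le_max_left _ _

theorem tent_le_one' (t : ℝ) : tent t ≤ 1 := by
  unfold tent
  exact max_le zero_le_one (by linarith [abs_nonneg t])

theorem tent_eq_zero' {t : ℝ} (ht : 1 ≤ |t|) : tent t = 0 := by
  unfold tent
  exact max_eq_left (by linarith)

theorem abs_tent_sub_le' (a b : ℝ) : |tent a - tent b| ≤ |a - b| := by
  unfold tent
  rw [max_comm 0, max_comm 0]
  refine (abs_max_sub_max_le_abs _ _ 0).trans ?_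
  have : (1 - |a|) - (1 - |b|) = -(|a| - |b|) := by ring
  rw [this, abs_neg]
  exact abs_abs_sub_abs_le_abs_sub a b

theorem abs_prod_sub_prod_le {ι : Type*} (s : Finset ι) (x y : ι → ℝ)
    (hx : ∀ i, |x i| ≤ 1) (hy : ∀ i, |y i| ≤ 1) :
    |∏ i ∈ s, x i - ∏ i ∈ s, y i| ≤ ∑ i ∈ s, |x i - y i| := by
  classical
  induction s using Finset.induction_on with
  | empty => simp
  | insert a s ha ih =>
    rw [Finset.prod_insert ha, Finset.prod_insert ha, Finset.sum_insert ha]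
    have h1 : x a * ∏ i ∈ s, x i - y a * ∏ i ∈ s, y i
        = (x a - y a) * ∏ i ∈ s, x i + y a * (∏ i ∈ s, x i - ∏ i ∈ s, y i) := by ring
    have h2 : |∏ i ∈ s, x i| ≤ 1 := by
      rw [Finset.abs_prod]
      exact Finset.prod_le_one (fun i _ => abs_nonneg _) (fun i _ => hx i)
    rw [h1]
    refine (abs_add_le _ _).trans ?_
    rw [abs_mul, abs_mul]
    have h3 : |x a - y a| * |∏ i ∈ s, x i| ≤ |x a - y a| :=
      mul_le_of_le_one_right (abs_nonneg _) h2
    have h4 : |y a| * |∏ i ∈ s, x i - ∏ i ∈ s, y i| ≤ |∏ i ∈ s, x i - ∏ i ∈ s, y i| :=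
      mul_le_of_le_one_left (abs_nonneg _) (hy a)
    linarith

theorem abs_prod_tent_sub_le' {ι : Type*} [Fintype ι] (a b : ι → ℝ) :
    |∏ i, tent (a i) - ∏ i, tent (b i)| ≤ ∑ i, |a i - b i| := by
  refine (abs_prod_sub_prod_le Finset.univ _ _ ?_ ?_).trans ?_
  · intro i; rw [abs_of_nonneg (tent_nonneg' _)]; exact tent_le_one' _
  · intro i; rw [abs_of_nonneg (tent_nonneg' _)]; exact tent_le_one' _
  · exact Finset.sum_le_sum fun i _ => abs_tent_sub_le' _ _

theorem abs_log_le_of_abs_sub_one_le {y ε : ℝ} (hε : ε ≤ 1 / 2) (h1 : 1 - ε ≤ y) (h2 : y ≤ 1 + ε) :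
    |Real.log y| ≤ 2 * ε := by
  have hy : 0 < y := by linarith
  have hε0 : 0 ≤ ε := by linarith
  rw [abs_le]
  constructor
  · have h3 := Real.one_sub_inv_le_log_of_pos hy
    have h4 : y⁻¹ ≤ 1 + 2 * ε := by
      rw [inv_le_comm₀ hy (by linarith)]
      have h5 : (1 + 2 * ε)⁻¹ ≤ 1 - ε := by
        rw [inv_le_iff_one_le_mul₀ (by linarith)]
        nlinarith
      linarith
    linarith
  · have h3 := Real.log_le_sub_one_of_pos hy
    linarith

variable (K : Type*) [Field K] [NumberField K]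

/-- the absolute norm of `x : K` as a real number. -/
noncomputable def Nm (x : K) : ℝ := mixedEmbedding.norm (mixedEmbedding K x)

theorem Nm_eq_prod (x : K) : Nm K x = ∏ v : InfinitePlace K, v x ^ mult v := by
  unfold Nm
  rw [mixedEmbedding.norm_apply]
  simp only [normAtPlace_apply]

theorem nrm_eq (x : 𝓞 K) : nrm K x = Nm K (x : K) := by
  unfold nrm Nm
  rw [norm_eq_norm, ← Algebra.coe_norm_int, Nat.cast_natAbs]
  push_cast
  rfl

variable {K}

theorem Nm_pos {x : K} (hx : x ≠ 0) : 0 < Nm K x := by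
  rw [Nm_eq_prod]
  exact Finset.prod_pos fun v _ => pow_pos (InfinitePlace.pos_iff.mpr hx) _

theorem Nm_mul (x y : K) : Nm K (x * y) = Nm K x * Nm K y := by
  unfold Nm
  rw [map_mul, map_mul]

theorem log_Nm {x : K} (hx : x ≠ 0) :
    Real.log (Nm K x) = ∑ v : InfinitePlace K, (mult v : ℝ) * Real.log (v x) := by
  rw [Nm_eq_prod, Real.log_prod]
  · exact Finset.sum_congr rfl fun v _ => Real.log_pow _ _
  · intro v _
    exact pow_ne_zero _ (InfinitePlace.pos_iff.mpr hx).ne'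

variable (K) in
/-- the normalised logarithm at every infinite place. -/
noncomputable def ell (x : K) (v : InfinitePlace K) : ℝ :=
  mult v * (Real.log (v x) - Real.log (Nm K x) * (finrank ℚ K : ℝ)⁻¹)

theorem sum_ell {x : K} (hx : x ≠ 0) : ∑ v, ell K x v = 0 := by
  unfold ell
  simp only [mul_sub, Finset.sum_sub_distrib]
  rw [← log_Nm hx, ← Finset.sum_mul, ← Nat.cast_sum, sum_mult_eq]
  have hn : (finrank ℚ K : ℝ) ≠ 0 := Nat.cast_ne_zero.mpr finrank_pos.ne'
  field_simp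
  ring

theorem logMap_eq_ell (x : K) (w : {w : InfinitePlace K // w ≠ w₀}) :
    logMap (mixedEmbedding K x) w = ell K x w.1 := by
  rw [logMap_apply, normAtPlace_apply]
  rfl

theorem abs_ell_le {x : K} (hx : x ≠ 0) {M : ℝ} (hM0 : 0 ≤ M)
    (hM : ∀ w : {w : InfinitePlace K // w ≠ w₀}, |logMap (mixedEmbedding K x) w| ≤ M)
    (v : InfinitePlace K) : |ell K x v| ≤ (finrank ℚ K : ℝ) * M := by
  classical
  have hn : (1 : ℝ) ≤ (finrank ℚ K : ℝ) := by exact_mod_cast (finrank_pos : 0 < finrank ℚ K)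
  have h1 : ∀ w : {w : InfinitePlace K // w ≠ w₀}, |ell K x w.1| ≤ M := by
    intro w
    rw [← logMap_eq_ell]
    exact hM w
  by_cases hv : v = w₀
  · have h2 := sum_ell hx
    rw [Fintype.sum_eq_add_sum_subtype_ne _ w₀] at h2
    have h3 : ell K x v = - ∑ w : {w : InfinitePlace K // w ≠ w₀}, ell K x w.1 := by
      rw [hv]; linarith
    rw [h3, abs_neg]
    refine (Finset.abs_sum_le_sum_abs _ _).trans ?_
    refine (Finset.sum_le_sum fun w _ => h1 w).trans ?_
    rw [Finset.sum_const, nsmul_eq_mul, Finset.card_univ]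
    refine mul_le_mul_of_nonneg_right ?_ hM0
    have h4 : Fintype.card {w : InfinitePlace K // w ≠ w₀} ≤ Fintype.card (InfinitePlace K) :=
      Fintype.card_subtype_le _
    have h5 : Fintype.card (InfinitePlace K) ≤ finrank ℚ K := by
      rw [← sum_mult_eq, Fintype.card_eq_sum_ones]
      exact Finset.sum_le_sum fun w _ => mult_pos
    exact_mod_cast h4.trans h5
  · refine (h1 ⟨v, hv⟩).trans ?_
    nlinarith

omit [NumberField K] in
theorem place_add_le (v : InfinitePlace K) (x y : K) : v (x + y) ≤ v x + v y := v.1.add_le x y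

omit [NumberField K] in
theorem place_neg (v : InfinitePlace K) (x : K) : v (-x) = v x := v.1.map_neg x

omit [NumberField K] in
theorem mult_le_two' (v : InfinitePlace K) : (mult v : ℝ) ≤ 2 := by
  rcases isReal_or_isComplex v with h | h
  · rw [h.mult_eq_one]; norm_num
  · rw [h.mult_eq_two]; norm_num

variable (K) in
theorem exists_lower_bound : ∃ κ : ℝ, 0 < κ ∧ ∀ x : K, x ≠ 0 → (∀ i, |cc K x i| ≤ 1) →
    ∀ v : InfinitePlace K, κ * (Nm K x) ^ (1 / (finrank ℚ K : ℝ)) ≤ v x := by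
  classical
  set M : ℝ := ∑ i, ∑ w : {w : InfinitePlace K // w ≠ w₀}, |logBasis K i w| with hMdef
  have hM0 : 0 ≤ M := Finset.sum_nonneg fun i _ => Finset.sum_nonneg fun w _ => abs_nonneg _
  set B : ℝ := (finrank ℚ K : ℝ) * M with hB
  have hB0 : 0 ≤ B := mul_nonneg (Nat.cast_nonneg _) hM0
  refine ⟨Real.exp (-B), Real.exp_pos _, ?_⟩
  intro x hx hc v
  have h1 : ∀ w : {w : InfinitePlace K // w ≠ w₀}, |logMap (mixedEmbedding K x) w| ≤ M := by
    intro w
    have h2 := (logBasis K).sum_repr (logMap (mixedEmbedding K x))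
    have h3 : logMap (mixedEmbedding K x) w = ∑ i, cc K x i * logBasis K i w := by
      conv_lhs => rw [← h2]
      rw [Finset.sum_apply]
      rfl
    rw [h3]
    refine (Finset.abs_sum_le_sum_abs _ _).trans ?_
    refine Finset.sum_le_sum fun i _ => ?_
    rw [abs_mul]
    refine (mul_le_of_le_one_left (abs_nonneg _) (hc i)).trans ?_
    exact Finset.single_le_sum (f := fun w => |logBasis K i w|) (fun w _ => abs_nonneg _)
      (Finset.mem_univ w)
  have h4 := abs_ell_le hx hM0 h1 v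
  have h5 : -B ≤ Real.log (v x) - Real.log (Nm K x) * (finrank ℚ K : ℝ)⁻¹ := by
    by_contra hlt
    rw [not_le] at hlt
    have h6 : -B ≤ ell K x v := (abs_le.mp h4).1
    unfold ell at h6
    have h7 : (1 : ℝ) ≤ mult v := one_le_mult
    nlinarith
  have hvx : 0 < v x := InfinitePlace.pos_iff.mpr hx
  rw [Real.rpow_def_of_pos (Nm_pos hx), ← Real.exp_add, ← Real.exp_log hvx]
  refine Real.exp_le_exp.mpr ?_
  rw [one_div]
  linarith

variable (K) in
theorem exists_perturbation : ∃ A₁ : ℝ, 0 ≤ A₁ ∧ ∀ (t : K) (ε : ℝ), ε ≤ 1 / 4 →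
    (∀ v : InfinitePlace K, v t ≤ ε) →
    1 + t ≠ 0 ∧ (∀ i, |cc K (1 + t) i| ≤ A₁ * ε) ∧
      |Real.log (Nm K (1 + t))| ≤ 2 * (finrank ℚ K : ℝ) * ε := by
  classical
  set C : ℝ := ∑ i, ∑ w : {w : InfinitePlace K // w ≠ w₀},
    |(logBasis K).coord i (fun j => if w = j then 1 else 0)| with hC
  have hC0 : 0 ≤ C := Finset.sum_nonneg fun i _ => Finset.sum_nonneg fun w _ => abs_nonneg _
  refine ⟨8 * C, by positivity, ?_⟩
  intro t ε hε ht
  have hn : (0 : ℝ) < (finrank ℚ K : ℝ) := by exact_mod_cast (finrank_pos : 0 < finrank ℚ K)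
  have hε0 : 0 ≤ ε := (apply_nonneg (Classical.arbitrary (InfinitePlace K)) t).trans (ht _)
  have hup : ∀ v : InfinitePlace K, v (1 + t) ≤ 1 + ε := by
    intro v
    have := place_add_le v 1 t
    rw [map_one] at this
    linarith [ht v]
  have hlo : ∀ v : InfinitePlace K, 1 - ε ≤ v (1 + t) := by
    intro v
    have := place_add_le v (1 + t) (-t)
    rw [place_neg, add_neg_cancel_right, map_one] at this
    linarith [ht v]
  have hne : 1 + t ≠ 0 := by
    intro h0
    have := hlo (Classical.arbitrary (InfinitePlace K))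
    rw [h0, map_zero] at this
    linarith
  have hlog : ∀ v : InfinitePlace K, |Real.log (v (1 + t))| ≤ 2 * ε := fun v =>
    abs_log_le_of_abs_sub_one_le (by linarith) (hlo v) (hup v)
  have hN : |Real.log (Nm K (1 + t))| ≤ 2 * (finrank ℚ K : ℝ) * ε := by
    rw [log_Nm hne]
    refine (Finset.abs_sum_le_sum_abs _ _).trans ?_
    have : ∀ v ∈ (Finset.univ : Finset (InfinitePlace K)),
        |(mult v : ℝ) * Real.log (v (1 + t))| ≤ (mult v : ℝ) * (2 * ε) := by
      intro v _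
      rw [abs_mul, abs_of_nonneg (Nat.cast_nonneg _)]
      exact mul_le_mul_of_nonneg_left (hlog v) (Nat.cast_nonneg _)
    refine (Finset.sum_le_sum this).trans ?_
    rw [← Finset.sum_mul, ← Nat.cast_sum, sum_mult_eq]
    linarith
  refine ⟨hne, ?_, hN⟩
  have hell : ∀ v : InfinitePlace K, |ell K (1 + t) v| ≤ 8 * ε := by
    intro v
    unfold ell
    rw [abs_mul, abs_of_nonneg (Nat.cast_nonneg _)]
    have h1 : |Real.log (Nm K (1 + t)) * (finrank ℚ K : ℝ)⁻¹| ≤ 2 * ε := by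
      rw [abs_mul, abs_of_pos (inv_pos.mpr hn), ← div_eq_mul_inv, div_le_iff₀ hn]
      linarith
    have h2 : |Real.log (v (1 + t)) - Real.log (Nm K (1 + t)) * (finrank ℚ K : ℝ)⁻¹| ≤ 4 * ε := by
      refine (abs_sub _ _).trans ?_
      linarith [hlog v]
    have h3 := mult_le_two' v
    have h4 : (0 : ℝ) ≤ mult v := Nat.cast_nonneg _
    nlinarith [abs_nonneg (Real.log (v (1 + t)) - Real.log (Nm K (1 + t)) * (finrank ℚ K : ℝ)⁻¹)]
  intro i
  have h1 : cc K (1 + t) i = (logBasis K).coord i (logMap (mixedEmbedding K (1 + t))) := rfl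
  rw [h1, LinearMap.pi_apply_eq_sum_univ]
  refine (Finset.abs_sum_le_sum_abs _ _).trans ?_
  have h2 : ∀ w ∈ (Finset.univ : Finset {w : InfinitePlace K // w ≠ w₀}),
      |logMap (mixedEmbedding K (1 + t)) w • (logBasis K).coord i (fun j => if w = j then 1 else 0)|
        ≤ 8 * ε * |(logBasis K).coord i (fun j => if w = j then 1 else 0)| := by
    intro w _
    rw [smul_eq_mul, abs_mul, logMap_eq_ell]
    exact mul_le_mul_of_nonneg_right (hell _) (abs_nonneg _)
  refine (Finset.sum_le_sum h2).trans ?_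
  rw [← Finset.mul_sum]
  have h3 : ∑ w : {w : InfinitePlace K // w ≠ w₀},
      |(logBasis K).coord i (fun j => if w = j then 1 else 0)| ≤ C :=
    Finset.single_le_sum (f := fun i => ∑ w : {w : InfinitePlace K // w ≠ w₀},
      |(logBasis K).coord i (fun j => if w = j then 1 else 0)|)
      (fun i _ => Finset.sum_nonneg fun w _ => abs_nonneg _) (Finset.mem_univ i)
  nlinarith

theorem cc_mul' {x y : K} (hx : x ≠ 0) (hy : y ≠ 0) (i : Fin (rank K)) :
    cc K (x * y) i = cc K x i + cc K y i := by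
  unfold cc
  rw [map_mul, logMap_mul (Nm_pos hx).ne' (Nm_pos hy).ne', map_add]
  rfl

theorem W_nonneg' (x : K) : 0 ≤ W K x := Finset.prod_nonneg fun _ _ => tent_nonneg' _

theorem W_le_one' (x : K) : W K x ≤ 1 :=
  Finset.prod_le_one (fun _ _ => tent_nonneg' _) (fun _ _ => tent_le_one' _)

variable (K) in
theorem main_estimate (H : ℝ) (hH : 0 ≤ H) : ∃ A₃ M₀ : ℝ, 0 ≤ A₃ ∧ 1 ≤ M₀ ∧
    ∀ (x h : 𝓞 K), (∀ v : InfinitePlace K, v (h : K) ≤ H) → x ≠ 0 →
      (∀ i, |cc K (x : K) i| ≤ 1) → M₀ ≤ nrm K x → ∀ s : ℝ, 1 ≤ s → s ≤ 2 →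
      |F K s (x + h) - F K s x| ≤ A₃ * nrm K x ^ (-(1 + 1 / (finrank ℚ K : ℝ))) := by
  obtain ⟨κ, hκ, hlow⟩ := exists_lower_bound K
  obtain ⟨A₁, hA₁, hpert⟩ := exists_perturbation K
  have hnpos : 0 < finrank ℚ K := finrank_pos
  set n : ℝ := (finrank ℚ K : ℝ) with hn
  have hn1 : 1 ≤ n := by rw [hn]; exact_mod_cast hnpos
  have hn0 : 0 < n := by linarith
  set r : ℝ := (rank K : ℝ) with hr
  have hr0 : 0 ≤ r := Nat.cast_nonneg _
  set R₀ : ℝ := 4 * n * H / κ + 1 with hR₀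
  have hR₀1 : 1 ≤ R₀ := by
    have : 0 ≤ 4 * n * H / κ := by positivity
    linarith
  refine ⟨(3 * r * A₁ + 8 * n) * (H / κ), R₀ ^ (finrank ℚ K), by positivity,
    one_le_pow₀ hR₀1, ?_⟩
  intro x h hh hx hc hM s hs1 hs2
  have hxK : (x : K) ≠ 0 := by
    intro h0
    exact hx (RingOfIntegers.coe_eq_zero_iff.mp h0)
  rw [nrm_eq] at hM ⊢
  set N : ℝ := Nm K (x : K) with hN
  have hN0 : 0 < N := Nm_pos hxK
  have hN1 : 1 ≤ N := (one_le_pow₀ hR₀1).trans hM
  set ρ : ℝ := N ^ (1 / n) with hρ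
  have hρ0 : 0 < ρ := Real.rpow_pos_of_pos hN0 _
  have hρR : R₀ ≤ ρ := by
    have h1 : (R₀ ^ (finrank ℚ K)) ^ (1 / n) ≤ N ^ (1 / n) :=
      Real.rpow_le_rpow (by positivity) hM (by positivity)
    rw [← Real.rpow_natCast, ← Real.rpow_mul (by linarith), ← hn, mul_one_div_cancel hn0.ne',
      Real.rpow_one] at h1
    exact h1
  set ε : ℝ := H / (κ * ρ) with hε
  have hε0 : 0 ≤ ε := by positivity
  have hε1 : 4 * n * ε ≤ 1 := by
    rw [hε, ← mul_div_assoc, div_le_one (by positivity)]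
    have h1 : 4 * n * H / κ ≤ ρ := by linarith
    rw [div_le_iff₀ hκ] at h1
    linarith
  have hε4 : ε ≤ 1 / 4 := by nlinarith
  set t : K := (h : K) / (x : K) with ht
  have htv : ∀ v : InfinitePlace K, v t ≤ ε := by
    intro v
    rw [ht, map_div₀, hε]
    exact div_le_div₀ hH (hh v) (by positivity) (hlow _ hxK hc v)
  obtain ⟨hne, hcc, hlogN⟩ := hpert t ε hε4 htv
  have hxh : ((x + h : 𝓞 K) : K) = (x : K) * (1 + t) := by
    rw [ht]
    push_cast
    field_simp
  have hW : |W K ((x + h : 𝓞 K) : K) - W K (x : K)| ≤ r * (A₁ * ε) := by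
    unfold W
    refine (abs_prod_tent_sub_le' _ _).trans ?_
    have h1 : ∀ i ∈ (Finset.univ : Finset (Fin (rank K))),
        |cc K ((x + h : 𝓞 K) : K) i - cc K (x : K) i| ≤ A₁ * ε := by
      intro i _
      rw [hxh, cc_mul' hxK hne, add_sub_cancel_left]
      exact hcc i
    refine (Finset.sum_le_sum h1).trans ?_
    rw [Finset.sum_const, nsmul_eq_mul, Finset.card_univ, Fintype.card_fin]
  set N' : ℝ := Nm K (1 + t) with hN'
  have hN'0 : 0 < N' := Nm_pos hne
  set y : ℝ := Real.log N' * (-s) with hy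
  have hy1 : |y| ≤ 4 * n * ε := by
    rw [hy, abs_mul, abs_neg, abs_of_nonneg (by linarith : (0 : ℝ) ≤ s)]
    have h0 := abs_nonneg (Real.log N')
    nlinarith
  have he1 : |Real.exp y - 1| ≤ 8 * n * ε := by
    refine (Real.abs_exp_sub_one_le (hy1.trans hε1)).trans ?_
    linarith
  have he3 : |Real.exp y| ≤ 3 := by
    have h1 : Real.exp y = (Real.exp y - 1) + 1 := by ring
    rw [h1]
    refine (abs_add_le _ _).trans ?_
    rw [abs_one]
    linarith
  have hF1 : F K s (x + h) = W K ((x + h : 𝓞 K) : K) * (N ^ (-s) * Real.exp y) := by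
    unfold F
    rw [nrm_eq, hxh, Nm_mul, Real.mul_rpow hN0.le hN'0.le, Real.rpow_def_of_pos hN'0]
  have hF2 : F K s x = W K (x : K) * N ^ (-s) := by
    unfold F
    rw [nrm_eq]
  have hNs0 : 0 ≤ N ^ (-s) := Real.rpow_nonneg hN0.le _
  have hkey : F K s (x + h) - F K s x = N ^ (-s) *
      ((W K ((x + h : 𝓞 K) : K) - W K (x : K)) * Real.exp y
        + W K (x : K) * (Real.exp y - 1)) := by
    rw [hF1, hF2]; ring
  have hb : |(W K ((x + h : 𝓞 K) : K) - W K (x : K)) * Real.exp y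
        + W K (x : K) * (Real.exp y - 1)| ≤ (3 * r * A₁ + 8 * n) * ε := by
    refine (abs_add_le _ _).trans ?_
    rw [abs_mul, abs_mul, abs_of_nonneg (W_nonneg' (x : K))]
    have h1 : |W K ((x + h : 𝓞 K) : K) - W K (x : K)| * |Real.exp y| ≤ r * (A₁ * ε) * 3 :=
      mul_le_mul hW he3 (abs_nonneg _) (by positivity)
    have h2 : W K (x : K) * |Real.exp y - 1| ≤ 1 * (8 * n * ε) :=
      mul_le_mul (W_le_one' _) he1 (abs_nonneg _) zero_le_one
    linarith
  rw [hkey, abs_mul, abs_of_nonneg hNs0]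
  have hNs : N ^ (-s) ≤ N ^ (-(1 : ℝ)) := Real.rpow_le_rpow_of_exponent_le hN1 (by linarith)
  have hεeq : ε = (H / κ) * N ^ (-(1 / n)) := by
    rw [hε, Real.rpow_neg hN0.le, ← hρ]
    field_simp
  have hsplit : N ^ (-(1 + 1 / n)) = N ^ (-(1 : ℝ)) * N ^ (-(1 / n)) := by
    rw [← Real.rpow_add hN0]
    congr 1
    ring
  calc N ^ (-s) * |(W K ((x + h : 𝓞 K) : K) - W K (x : K)) * Real.exp y
        + W K (x : K) * (Real.exp y - 1)|
      ≤ N ^ (-(1 : ℝ)) * ((3 * r * A₁ + 8 * n) * ε) :=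
        mul_le_mul hNs hb (abs_nonneg _) (Real.rpow_nonneg hN0.le _)
    _ = (3 * r * A₁ + 8 * n) * (H / κ) * N ^ (-(1 + 1 / n)) := by
        rw [hsplit, hεeq]; ring

theorem one_le_nrm {x : 𝓞 K} (hx : x ≠ 0) : 1 ≤ nrm K x := by
  unfold nrm
  have h1 : Algebra.norm ℤ x ≠ 0 := Algebra.norm_ne_zero_iff.mpr hx
  have h2 : 1 ≤ (Algebra.norm ℤ x).natAbs := Nat.one_le_iff_ne_zero.mpr (Int.natAbs_ne_zero.mpr h1)
  exact_mod_cast h2

theorem nrm_zero' : nrm K (0 : 𝓞 K) = 0 := by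
  unfold nrm
  simp

theorem nrm_nonneg' (x : 𝓞 K) : 0 ≤ nrm K x := Nat.cast_nonneg _

end Ratio

variable (K : Type*) [Field K] [NumberField K]

open Classical in
/-- indicator of the box `|cc_i| ≤ 1`. -/
noncomputable def box (x : K) : ℝ := if ∀ i, |cc K x i| ≤ 1 then 1 else 0

/-- the majorant; `G 0 = 0`. -/
noncomputable def G (x : 𝓞 K) : ℝ := box K (x : K) * nrm K x ^ (-(1 + 1 / (finrank ℚ K : ℝ)))

namespace Ratio

variable {K}

theorem box_nonneg (x : K) : 0 ≤ box K x := by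
  unfold box
  split_ifs <;> norm_num

theorem G_nonneg (x : 𝓞 K) : 0 ≤ G K x :=
  mul_nonneg (box_nonneg _) (Real.rpow_nonneg (nrm_nonneg' x) _)

theorem G_of_box {x : 𝓞 K} (hx : ∀ i, |cc K (x : K) i| ≤ 1) :
    G K x = nrm K x ^ (-(1 + 1 / (finrank ℚ K : ℝ))) := by
  unfold G box
  rw [if_pos hx, one_mul]

theorem abs_F_le_small {M₀ : ℝ} (hM₀ : 1 ≤ M₀) (x : 𝓞 K) {s : ℝ} (hs : 1 ≤ s)
    (hx : ¬ ((∀ i, |cc K (x : K) i| ≤ 1) ∧ M₀ ≤ nrm K x)) :
    |F K s x| ≤ M₀ ^ (1 + 1 / (finrank ℚ K : ℝ)) * G K x := by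
  have hσ : (0 : ℝ) < 1 + 1 / (finrank ℚ K : ℝ) := by positivity
  have hR : 0 ≤ M₀ ^ (1 + 1 / (finrank ℚ K : ℝ)) * G K x :=
    mul_nonneg (Real.rpow_nonneg (by linarith) _) (G_nonneg x)
  by_cases hb : ∀ i, |cc K (x : K) i| ≤ 1
  · have hlt : nrm K x < M₀ := by
      by_contra hge
      exact hx ⟨hb, not_lt.mp hge⟩
    by_cases h0 : x = 0
    · have : F K s x = 0 := by
        unfold F
        rw [h0, nrm_zero', Real.zero_rpow (by linarith), mul_zero]
      rw [this, abs_zero]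
      exact hR
    · have h1 := one_le_nrm h0
      have h1' : 0 < nrm K x := by linarith
      rw [G_of_box hb]
      have h2 : |F K s x| ≤ 1 := by
        unfold F
        rw [abs_mul, abs_of_nonneg (W_nonneg' _), abs_of_nonneg (Real.rpow_nonneg h1'.le _)]
        refine mul_le_one₀ (W_le_one' _) (Real.rpow_nonneg h1'.le _) ?_
        exact Real.rpow_le_one_of_one_le_of_nonpos h1 (by linarith)
      refine h2.trans ?_
      rw [Real.rpow_neg h1'.le, ← div_eq_mul_inv, one_le_div (Real.rpow_pos_of_pos h1' _)]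
      exact Real.rpow_le_rpow h1'.le hlt.le hσ.le
  · have : F K s x = 0 := by
      push Not at hb
      obtain ⟨i, hi⟩ := hb
      unfold F W
      rw [Finset.prod_eq_zero (Finset.mem_univ i) (tent_eq_zero' hi.le), zero_mul]
    rw [this, abs_zero]
    exact hR

end Ratio

open Ratio in
theorem ratio_estimate (h : 𝓞 K) :
    ∃ A : ℝ, 0 ≤ A ∧ ∀ s : ℝ, 1 ≤ s → s ≤ 2 → ∀ β : 𝓞 K,
      |F K s (β + h) - F K s β| ≤ A * (G K β + G K (β + h)) := by
  set H : ℝ := ∑ v : InfinitePlace K, v (h : K) with hH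
  have hH0 : 0 ≤ H := Finset.sum_nonneg fun v _ => apply_nonneg v _
  have hHv : ∀ v : InfinitePlace K, v (h : K) ≤ H := fun v =>
    Finset.single_le_sum (f := fun v : InfinitePlace K => v (h : K))
      (fun v _ => apply_nonneg v _) (Finset.mem_univ v)
  obtain ⟨A₃, M₀, hA₃, hM₀, hmain⟩ := main_estimate K H hH0
  have hP : 0 ≤ M₀ ^ (1 + 1 / (finrank ℚ K : ℝ)) := Real.rpow_nonneg (by linarith) _
  refine ⟨A₃ + M₀ ^ (1 + 1 / (finrank ℚ K : ℝ)), by positivity, ?_⟩
  intro s hs1 hs2 β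
  have hG1 := G_nonneg β
  have hG2 := G_nonneg (β + h)
  by_cases c1 : (∀ i, |cc K (β : K) i| ≤ 1) ∧ M₀ ≤ nrm K β
  · have hβ : β ≠ 0 := by
      rintro rfl
      rw [nrm_zero'] at c1
      linarith [c1.2]
    have h1 := hmain β h hHv hβ c1.1 c1.2 s hs1 hs2
    rw [← G_of_box c1.1] at h1
    nlinarith
  · by_cases c2 : (∀ i, |cc K ((β + h : 𝓞 K) : K) i| ≤ 1) ∧ M₀ ≤ nrm K (β + h)
    · have hβ : β + h ≠ 0 := by
        intro h0
        rw [h0, nrm_zero'] at c2
        linarith [c2.2]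
      have hHv' : ∀ v : InfinitePlace K, v ((-h : 𝓞 K) : K) ≤ H := by
        intro v
        have : ((-h : 𝓞 K) : K) = -(h : K) := by push_cast; rfl
        rw [this, place_neg]
        exact hHv v
      have h1 := hmain (β + h) (-h) hHv' hβ c2.1 c2.2 s hs1 hs2
      rw [← G_of_box c2.1, add_neg_cancel_right, abs_sub_comm] at h1
      nlinarith
    · have h1 := abs_F_le_small hM₀ β hs1 c1
      have h2 := abs_F_le_small hM₀ (β + h) hs1 c2
      have h3 := abs_sub (F K s (β + h)) (F K s β)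
      nlinarith

end Fermat.Agent.S14.ClassZeta
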