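import Fermat.Agent.S14.ClassZeta.PrinSum
import Fermat.Agent.S14.Analytic.Basic

/-!
# S14 / C3 / Z3 : unfolding a sum over `J \ 0` over unit orbits
Owner: helper173.
-/

set_option autoImplicit false

namespace Fermat.Agent.S14.ClassZeta

open NumberField NumberField.Units NumberField.mixedEmbedding NumberField.InfinitePlace
open Ideal nonZeroDivisors Module

variable (K : Type*) [Field K] [NumberField K]

theorem summable_absNorm_rpow {s : ℝ} (hs : 1 < s) :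
    Summable fun I : (Ideal (𝓞 K))⁰ => (absNorm (I : Ideal (𝓞 K)) : ℝ) ^ (-s) :=
  Fermat.Agent.S14.Analytic.summable_term K hs

theorem nrm_eq_absNorm_span (x : 𝓞 K) : nrm K x = (absNorm (Ideal.span {x}) : ℝ) := by
  rw [nrm, Ideal.absNorm_span_singleton]

theorem nrm_zero_rpow {s : ℝ} (hs : s ≠ 0) : nrm K 0 ^ (-s) = 0 := by
  have : nrm K 0 = 0 := by simp [nrm]
  rw [this, Real.zero_rpow (neg_ne_zero.mpr hs)]

/-- unfolding over unit orbits -/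
theorem hasSum_unfold (J : (Ideal (𝓞 K))⁰) (Φ : K → ℝ) (hΦ : ∀ x, 0 ≤ Φ x) (c : ℝ)
    (hc : ∀ x : K, x ≠ 0 → HasSum (fun u : (𝓞 K)ˣ => Φ (((u : 𝓞 K) : K) * x)) c)
    {s : ℝ} (hs : 1 < s) :
    HasSum (fun β : (J : Ideal (𝓞 K)) => Φ ((β : 𝓞 K) : K) * nrm K (β : 𝓞 K) ^ (-s))
      (c * prinSum K J s) := by
  classical
  set P := {I : (Ideal (𝓞 K))⁰ // (J : Ideal (𝓞 K)) ∣ I ∧ (I : Ideal (𝓞 K)).IsPrincipal} with hP
  -- generators
  have hgen : ∀ I : P, ∃ g : 𝓞 K, Ideal.span {g} = (I.1 : Ideal (𝓞 K)) := fun I => by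
    obtain ⟨g, hg⟩ := I.2.2
    exact ⟨g, hg.symm⟩
  choose g hg using hgen
  have hg0 : ∀ I : P, g I ≠ 0 := fun I h0 => by
    have h1 := hg I
    rw [h0] at h1
    have h2 : (I.1 : Ideal (𝓞 K)) ≠ 0 := nonZeroDivisors.coe_ne_zero I.1
    apply h2
    rw [← h1]
    simp
  have hgJ : ∀ I : P, g I ∈ (J : Ideal (𝓞 K)) := fun I => by
    rw [← Ideal.dvd_span_singleton, hg I]
    exact I.2.1
  -- the parametrisation
  let i : P × (𝓞 K)ˣ → (J : Ideal (𝓞 K)) := fun x =>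
    ⟨(x.2 : 𝓞 K) * g x.1, Ideal.mul_mem_left _ _ (hgJ x.1)⟩
  have hspan : ∀ x : P × (𝓞 K)ˣ, Ideal.span {(x.2 : 𝓞 K) * g x.1} = (x.1.1 : Ideal (𝓞 K)) :=
    fun x => by rw [Ideal.span_singleton_mul_left_unit x.2.isUnit, hg]
  have hinj : Function.Injective i := by
    rintro ⟨I, u⟩ ⟨I', u'⟩ h
    have h1 : (u : 𝓞 K) * g I = (u' : 𝓞 K) * g I' := congrArg Subtype.val h
    have h2 : I = I' := by
      apply Subtype.ext
      apply Subtype.ext
      rw [← hspan (I, u), ← hspan (I', u')]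
      exact congrArg (fun t => Ideal.span {t}) h1
    subst h2
    have h3 : (u : 𝓞 K) = u' := mul_right_cancel₀ (hg0 I) h1
    rw [Units.ext h3]
  have hrange : ∀ β : (J : Ideal (𝓞 K)), β ∉ Set.range i →
      Φ ((β : 𝓞 K) : K) * nrm K (β : 𝓞 K) ^ (-s) = 0 := by
    intro β hβ
    by_cases h0 : (β : 𝓞 K) = 0
    · rw [h0, nrm_zero_rpow K (by linarith), mul_zero]
    · exfalso
      apply hβ
      have hne : Ideal.span {(β : 𝓞 K)} ≠ 0 := by
        simpa [Ideal.span_singleton_eq_bot] using h0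
      let I : P := ⟨⟨Ideal.span {(β : 𝓞 K)}, mem_nonZeroDivisors_of_ne_zero hne⟩,
        by
          refine ⟨?_, ⟨⟨(β : 𝓞 K), rfl⟩⟩⟩
          rw [Ideal.dvd_span_singleton]
          exact β.2⟩
      have h1 : Ideal.span {g I} = Ideal.span {(β : 𝓞 K)} := hg I
      rw [Ideal.span_singleton_eq_span_singleton] at h1
      obtain ⟨u, hu⟩ := h1
      refine ⟨(I, u), ?_⟩
      apply Subtype.ext
      show (u : 𝓞 K) * g I = β
      rw [mul_comm, hu]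
  rw [← hinj.hasSum_iff hrange]
  -- the function on the product
  have hval : ∀ x : P × (𝓞 K)ˣ,
      ((fun β : (J : Ideal (𝓞 K)) => Φ ((β : 𝓞 K) : K) * nrm K (β : 𝓞 K) ^ (-s)) ∘ i) x =
        Φ (((x.2 : 𝓞 K) : K) * ((g x.1 : 𝓞 K) : K)) *
          (absNorm (x.1.1 : Ideal (𝓞 K)) : ℝ) ^ (-s) := by
    intro x
    simp only [Function.comp_apply, i]
    rw [nrm_eq_absNorm_span, hspan x]
    push_cast
    rfl
  rw [show ((fun β : (J : Ideal (𝓞 K)) => Φ ((β : 𝓞 K) : K) * nrm K (β : 𝓞 K) ^ (-s)) ∘ i) =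
      fun x : P × (𝓞 K)ˣ => Φ (((x.2 : 𝓞 K) : K) * ((g x.1 : 𝓞 K) : K)) *
          (absNorm (x.1.1 : Ideal (𝓞 K)) : ℝ) ^ (-s) from funext hval]
  have hgK : ∀ I : P, ((g I : 𝓞 K) : K) ≠ 0 := fun I h => hg0 I (by exact_mod_cast h)
  have hfib : ∀ I : P, HasSum (fun u : (𝓞 K)ˣ => Φ (((u : 𝓞 K) : K) * ((g I : 𝓞 K) : K)) *
      (absNorm (I.1 : Ideal (𝓞 K)) : ℝ) ^ (-s)) (c * (absNorm (I.1 : Ideal (𝓞 K)) : ℝ) ^ (-s)) :=
    fun I => (hc _ (hgK I)).mul_right _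
  have hout : Summable fun I : P => c * (absNorm (I.1 : Ideal (𝓞 K)) : ℝ) ^ (-s) :=
    ((summable_absNorm_rpow K hs).subtype _).mul_left c
  have hnn : 0 ≤ fun x : P × (𝓞 K)ˣ => Φ (((x.2 : 𝓞 K) : K) * ((g x.1 : 𝓞 K) : K)) *
          (absNorm (x.1.1 : Ideal (𝓞 K)) : ℝ) ^ (-s) := fun x =>
    mul_nonneg (hΦ _) (Real.rpow_nonneg (Nat.cast_nonneg _) _)
  have hsum : Summable fun x : P × (𝓞 K)ˣ => Φ (((x.2 : 𝓞 K) : K) * ((g x.1 : 𝓞 K) : K)) *
          (absNorm (x.1.1 : Ideal (𝓞 K)) : ℝ) ^ (-s) := by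
    rw [summable_prod_of_nonneg hnn]
    refine ⟨fun I => (hfib I).summable, ?_⟩
    simp only [fun I => (hfib I).tsum_eq]
    exact hout
  have htsum := hsum.tsum_prod' (fun I => (hfib I).summable)
  simp only [fun I => (hfib I).tsum_eq] at htsum
  rw [tsum_mul_left] at htsum
  rw [prinSum, ← htsum]
  exact hsum.hasSum

end Fermat.Agent.S14.ClassZeta
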