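import Fermat.Agent.S14.ClassZeta.UnitSum
import Fermat.Agent.S14.ClassZeta.Unfold
import Fermat.Agent.S14.ClassZeta.ClassPrin
import Fermat.Agent.S14.ClassZeta.Ratio

/-!
# S14 / C3 : class zeta functions differ by a bounded function near `s = 1`

Assembly (Z6).  Owner: helper185.
-/

set_option autoImplicit false
set_option linter.unusedSectionVars false
set_option linter.unusedVariables false

namespace Fermat.Agent.S14.ClassZeta

open NumberField NumberField.Units NumberField.mixedEmbedding NumberField.InfinitePlace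
open Ideal nonZeroDivisors Module

section coset

variable {R : Type*} [CommRing R] (J : Ideal R)

/-- a set-theoretic splitting `R ≃ (R ⧸ J) × J`. -/
noncomputable def cosetRep (q : R ⧸ J) : R := Function.surjInv Ideal.Quotient.mk_surjective q

theorem mk_cosetRep (q : R ⧸ J) : Ideal.Quotient.mk J (cosetRep J q) = q :=
  Function.surjInv_eq _ q

noncomputable def cosetEquiv : (R ⧸ J) × J ≃ R where
  toFun p := (p.2 : R) + cosetRep J p.1
  invFun x := (Ideal.Quotient.mk J x, ⟨x - cosetRep J (Ideal.Quotient.mk J x), by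
    rw [← Ideal.Quotient.eq, mk_cosetRep]⟩)
  left_inv := by
    rintro ⟨q, a, ha⟩
    have h1 : Ideal.Quotient.mk J (a + cosetRep J q) = q := by
      rw [map_add, mk_cosetRep, Ideal.Quotient.eq_zero_iff_mem.mpr ha, zero_add]
    ext
    · simp only [h1]
    · simp only [h1]; ring
  right_inv := by
    intro x
    simp

theorem cosetEquiv_apply (q : R ⧸ J) (a : J) : cosetEquiv J (q, a) = (a : R) + cosetRep J q := rfl

theorem coset_compare [Fintype (R ⧸ J)] (f g : R → ℝ) (A : (R ⧸ J) → ℝ)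
    (hf : Summable f) (hg : Summable g) (hg0 : ∀ x, 0 ≤ g x) (hA : ∀ q, 0 ≤ A q)
    (h : ∀ (q : R ⧸ J) (β : R),
      |f (β + cosetRep J q) - f β| ≤ A q * (g β + g (β + cosetRep J q))) :
    |∑' x, f x - (Fintype.card (R ⧸ J) : ℝ) * ∑' β : J, f β| ≤ (∑ q, A q) * (2 * ∑' x, g x) := by
  have hinj : ∀ q : R ⧸ J, Function.Injective (fun a : J => (a : R) + cosetRep J q) := by
    intro q a b hab
    exact Subtype.ext (add_right_cancel hab)
  have hfq : ∀ q : R ⧸ J, Summable (fun a : J => f ((a : R) + cosetRep J q)) :=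
    fun q => hf.comp_injective (hinj q)
  have hgq : ∀ q : R ⧸ J, Summable (fun a : J => g ((a : R) + cosetRep J q)) :=
    fun q => hg.comp_injective (hinj q)
  have hfJ : Summable (fun a : J => f (a : R)) := hf.subtype _
  have hgJ : Summable (fun a : J => g (a : R)) := hg.subtype _
  have h1 : ∑' x, f x = ∑ q, ∑' a : J, f ((a : R) + cosetRep J q) := by
    rw [← (cosetEquiv J).tsum_eq f]
    have hs : Summable (fun p : (R ⧸ J) × J => f (cosetEquiv J p)) :=
      (cosetEquiv J).summable_iff.mpr hf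
    rw [hs.tsum_prod' (fun q => hfq q), tsum_fintype]
    rfl
  have h2 : (Fintype.card (R ⧸ J) : ℝ) * ∑' β : J, f β = ∑ _q : R ⧸ J, ∑' a : J, f (a : R) := by
    rw [Finset.sum_const, Finset.card_univ, nsmul_eq_mul]
  rw [h1, h2, ← Finset.sum_sub_distrib, Finset.sum_mul]
  refine (Finset.abs_sum_le_sum_abs _ _).trans (Finset.sum_le_sum fun q _ => ?_)
  rw [← (hfq q).tsum_sub hfJ]
  have hle1 : ∑' a : J, g (a : R) ≤ ∑' x, g x :=
    hg.tsum_subtype_le _ _ hg0 
  have hle2 : ∑' a : J, g ((a : R) + cosetRep J q) ≤ ∑' x, g x :=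
    tsum_comp_le_tsum_of_inj hg hg0 (hinj q)
  have hmaj : Summable (fun a : J => A q * (g (a : R) + g ((a : R) + cosetRep J q))) :=
    (hgJ.add (hgq q)).mul_left _
  have habs : Summable (fun a : J => |f ((a : R) + cosetRep J q) - f (a : R)|) :=
    Summable.of_nonneg_of_le (fun _ => abs_nonneg _) (fun a => h q a) hmaj
  calc |∑' a : J, (f ((a : R) + cosetRep J q) - f (a : R))|
      ≤ ∑' a : J, |f ((a : R) + cosetRep J q) - f (a : R)| := by
        simpa [Real.norm_eq_abs] using norm_tsum_le_tsum_norm (f := fun a : J => f ((a : R) + cosetRep J q) - f (a : R)) (by simpa [Real.norm_eq_abs] using habs)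
    _ ≤ ∑' a : J, A q * (g (a : R) + g ((a : R) + cosetRep J q)) :=
        habs.tsum_le_tsum (fun a => h q a)  hmaj
    _ = A q * (∑' a : J, g (a : R) + ∑' a : J, g ((a : R) + cosetRep J q)) := by
        rw [tsum_mul_left, hgJ.tsum_add (hgq q)]
    _ ≤ A q * (2 * ∑' x, g x) := by
        apply mul_le_mul_of_nonneg_left _ (hA q)
        linarith

end coset

variable (K : Type*) [Field K] [NumberField K]

theorem W_nonneg (x : K) : 0 ≤ W K x := Finset.prod_nonneg fun i _ => tent_nonneg _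

theorem nrm_nonneg (x : 𝓞 K) : 0 ≤ nrm K x := Nat.cast_nonneg _

theorem hasSum_one_iff (f : 𝓞 K → ℝ) (a : ℝ) :
    HasSum (fun β : ((1 : (Ideal (𝓞 K))⁰) : Ideal (𝓞 K)) => f β) a ↔ HasSum f a := by
  have h : ∀ x : 𝓞 K, x ∈ ((1 : (Ideal (𝓞 K))⁰) : Ideal (𝓞 K)) := by intro x; simp
  exact (Equiv.subtypeUnivEquiv h).hasSum_iff (f := f)

theorem hasSum_F_ideal (J : (Ideal (𝓞 K))⁰) {s : ℝ} (hs : 1 < s) :
    HasSum (fun β : (J : Ideal (𝓞 K)) => F K s β) (torsionOrder K * prinSum K J s) :=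
  hasSum_unfold K J (W K) (W_nonneg K) (torsionOrder K) (fun _ hx => hasSum_W_units K hx) hs

theorem hasSum_F {s : ℝ} (hs : 1 < s) :
    HasSum (F K s) (torsionOrder K * prinSum K 1 s) :=
  (hasSum_one_iff K _ _).mp (hasSum_F_ideal K 1 hs)

/-- the majorant weight -/
noncomputable def Phi (x : K) : ℝ :=
  ∑ e ∈ Fintype.piFinset (fun _ : Fin (rank K) => ({-1, 0, 1} : Finset ℤ)),
    W K (((unitOf K e : 𝓞 K) : K) * x)

theorem Phi_nonneg (x : K) : 0 ≤ Phi K x := Finset.sum_nonneg fun _ _ => W_nonneg K _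

theorem box_le_Phi {x : K} (hx : x ≠ 0) : box K x ≤ Phi K x := by
  unfold box
  split_ifs with h
  · refine (one_le_sum_prod_tent (fun i => cc K x i) h).trans (le_of_eq ?_)
    unfold Phi W
    refine Finset.sum_congr rfl fun e _ => Finset.prod_congr rfl fun i _ => ?_
    rw [cc_mul K (by simp) hx, cc_unitOf, add_comm]
  · exact Phi_nonneg K x

theorem hasSum_Phi_units {x : K} (hx : x ≠ 0) :
    HasSum (fun u : (𝓞 K)ˣ => Phi K (((u : 𝓞 K) : K) * x))
      (∑ _e ∈ Fintype.piFinset (fun _ : Fin (rank K) => ({-1, 0, 1} : Finset ℤ)),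
        (torsionOrder K : ℝ)) := by
  unfold Phi
  refine hasSum_sum fun e _ => ?_
  have := (Equiv.mulLeft (unitOf K e)).hasSum_iff.mpr (hasSum_W_units K hx)
  convert this using 2 with u
  simp [mul_assoc]

theorem box_nonneg (x : K) : 0 ≤ box K x := by
  unfold box; split_ifs <;> norm_num

theorem G_nonneg (x : 𝓞 K) : 0 ≤ G K x :=
  mul_nonneg (box_nonneg K _) (Real.rpow_nonneg (nrm_nonneg K x) _)

theorem one_lt_sigma : 1 < 1 + 1 / (finrank ℚ K : ℝ) := by
  have : 0 < (finrank ℚ K : ℝ) := Nat.cast_pos.mpr finrank_pos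
  have : 0 < 1 / (finrank ℚ K : ℝ) := by positivity
  linarith

theorem summable_G : Summable (G K) := by
  have h := hasSum_unfold K 1 (Phi K) (Phi_nonneg K) _ (fun _ hx => hasSum_Phi_units K hx)
    (one_lt_sigma K)
  have h2 := ((hasSum_one_iff K (fun x : 𝓞 K => Phi K (x : K) *
    nrm K x ^ (-(1 + 1 / (finrank ℚ K : ℝ)))) _).mp h).summable
  refine Summable.of_nonneg_of_le (G_nonneg K) (fun x => ?_) h2
  by_cases hx : x = 0
  · subst hx
    have h0 : nrm K (0 : 𝓞 K) = 0 := by simp [nrm]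
    have hne : -(1 + 1 / (finrank ℚ K : ℝ)) ≠ 0 := by
      have := one_lt_sigma K
      intro h; linarith
    simp only [G, h0, Real.zero_rpow hne, mul_zero, le_refl]
  · unfold G
    exact mul_le_mul_of_nonneg_right (box_le_Phi K (by simpa using hx))
      (Real.rpow_nonneg (nrm_nonneg K x) _)

theorem coset_bound (J : (Ideal (𝓞 K))⁰) : ∃ B : ℝ, ∀ s : ℝ, 1 < s → s ≤ 2 →
    |∑' x : 𝓞 K, F K s x - (absNorm (J : Ideal (𝓞 K)) : ℝ) * ∑' β : (J : Ideal (𝓞 K)), F K s β|
      ≤ B := by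
  classical
  have hJ0 : (J : Ideal (𝓞 K)) ≠ ⊥ := by
    have := nonZeroDivisors.coe_ne_zero J
    simpa using this
  have : Finite (𝓞 K ⧸ (J : Ideal (𝓞 K))) := Ideal.finiteQuotientOfFreeOfNeBot _ hJ0
  have : Fintype (𝓞 K ⧸ (J : Ideal (𝓞 K))) := Fintype.ofFinite _
  choose A hA0 hA using fun q : 𝓞 K ⧸ (J : Ideal (𝓞 K)) =>
    ratio_estimate K (cosetRep (J : Ideal (𝓞 K)) q)
  refine ⟨(∑ q, A q) * (2 * ∑' x, G K x), fun s hs hs2 => ?_⟩
  have hcard : (absNorm (J : Ideal (𝓞 K)) : ℝ) =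
      (Fintype.card (𝓞 K ⧸ (J : Ideal (𝓞 K))) : ℝ) := by
    rw [Ideal.absNorm_apply, Submodule.cardQuot_apply, Nat.card_eq_fintype_card]
  rw [hcard]
  exact coset_compare (J : Ideal (𝓞 K)) (F K s) (G K) A (hasSum_F K hs).summable (summable_G K)
    (G_nonneg K) hA0 (fun q β => hA q s hs.le hs2 β)

theorem partialZeta_one (s : ℝ) : partialZeta K 1 s = prinSum K 1 s := by
  have := partialZeta_eq K 1 1 (by simp) s
  simpa using this

theorem partialZeta_sub_one_bounded (C : ClassGroup (𝓞 K)) :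
    ∃ B : ℝ, ∀ s : ℝ, 1 < s → s ≤ 2 → |partialZeta K C s - partialZeta K 1 s| ≤ B := by
  obtain ⟨J, hJ⟩ := ClassGroup.mk0_surjective C⁻¹
  obtain ⟨B₁, hB₁⟩ := coset_bound K J
  obtain ⟨B₂, hB₂⟩ := exists_sub_one_mul_tsum_le K
  set m : ℝ := (absNorm (J : Ideal (𝓞 K)) : ℝ) with hm
  have hm1 : 1 ≤ m := by
    have : 1 ≤ absNorm (J : Ideal (𝓞 K)) := absNorm_pos_of_nonZeroDivisors J
    rw [hm]; exact_mod_cast this
  set w : ℝ := (torsionOrder K : ℝ) with hw
  have hw1 : 1 ≤ w := by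
    have : 1 ≤ torsionOrder K := torsionOrder_pos K
    rw [hw]; exact_mod_cast this
  refine ⟨m * B₁ + (m - 1) * B₂, fun s hs hs2 => ?_⟩
  have h1 := hB₁ s hs hs2
  rw [(hasSum_F K hs).tsum_eq, (hasSum_F_ideal K J hs).tsum_eq] at h1
  have h2 := hB₂ s hs hs2
  have h3 := prinSum_le K 1 hs
  rw [partialZeta_eq K C J hJ s, partialZeta_one]
  set P1 := prinSum K 1 s
  set PJ := prinSum K J s
  set Z := ∑' I : (Ideal (𝓞 K))⁰, (absNorm (I : Ideal (𝓞 K)) : ℝ) ^ (-s)
  have hP1 : 0 ≤ P1 := tsum_nonneg fun I => by positivity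
  -- m^s = m^(s-1) * m
  have hms : m ^ s = m ^ (s - 1) * m := by
    rw [← Real.rpow_add_one (by linarith)]; ring_nf
  have hpow1 : 1 ≤ m ^ (s - 1) := Real.one_le_rpow hm1 (by linarith)
  have hpow2 : m ^ (s - 1) ≤ 1 + (s - 1) * (m - 1) := by
    have := rpow_one_add_le_one_add_mul_self (s := m - 1) (p := s - 1) (by linarith)
      (by linarith) (by linarith)
    simpa using this
  have hpow3 : m ^ (s - 1) ≤ m := by
    nlinarith
  -- |P1 - m PJ| ≤ B₁ / w ≤ B₁
  have h4 : |P1 - m * PJ| ≤ B₁ := by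
    have : w * P1 - m * (w * PJ) = w * (P1 - m * PJ) := by ring
    rw [this, abs_mul, abs_of_pos (by linarith : 0 < w)] at h1
    have h5 : 0 ≤ |P1 - m * PJ| := abs_nonneg _
    nlinarith
  have hB1 : 0 ≤ B₁ := (abs_nonneg _).trans h4
  have key : m ^ s * PJ - P1 = m ^ (s - 1) * (m * PJ - P1) + (m ^ (s - 1) - 1) * P1 := by
    rw [hms]; ring
  rw [key]
  have h6 : |m ^ (s - 1) * (m * PJ - P1)| ≤ m * B₁ := by
    rw [abs_mul, abs_of_pos (by linarith), abs_sub_comm]
    exact mul_le_mul hpow3 h4 (abs_nonneg _) (by linarith)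
  have h7 : |(m ^ (s - 1) - 1) * P1| ≤ (m - 1) * B₂ := by
    rw [abs_of_nonneg (mul_nonneg (by linarith) hP1)]
    calc (m ^ (s - 1) - 1) * P1 ≤ ((s - 1) * (m - 1)) * Z :=
          mul_le_mul (by linarith) h3 hP1 (mul_nonneg (by linarith) (by linarith))
      _ = (m - 1) * ((s - 1) * Z) := by ring
      _ ≤ (m - 1) * B₂ := mul_le_mul_of_nonneg_left h2 (by linarith)
  exact (abs_add_le _ _).trans (add_le_add h6 h7)

theorem partialZeta_sub_bounded (C C' : ClassGroup (𝓞 K)) :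
    ∃ B : ℝ, ∀ s : ℝ, 1 < s → s ≤ 2 → |partialZeta K C s - partialZeta K C' s| ≤ B := by
  obtain ⟨B, hB⟩ := partialZeta_sub_one_bounded K C
  obtain ⟨B', hB'⟩ := partialZeta_sub_one_bounded K C'
  refine ⟨B + B', fun s hs hs2 => ?_⟩
  have h1 := hB s hs hs2
  have h2 := hB' s hs hs2
  calc |partialZeta K C s - partialZeta K C' s|
      = |(partialZeta K C s - partialZeta K 1 s) - (partialZeta K C' s - partialZeta K 1 s)| := by
        ring_nf
    _ ≤ _ := (abs_sub _ _).trans (add_le_add h1 h2)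

open Classical in
theorem tsum_class_eq (X : ClassGroup (𝓞 K) → ℂ) {s : ℝ} (hs : 1 < s) :
    ∑' I : (Ideal (𝓞 K))⁰, X (ClassGroup.mk0 I) *
        (((absNorm (I : Ideal (𝓞 K)) : ℝ) ^ (-s) : ℝ) : ℂ) =
      ∑ C, X C * (partialZeta K C s : ℂ) := by
  have hsum := summable_absNorm_rpow K hs
  set t : (Ideal (𝓞 K))⁰ → ℝ := fun I => (absNorm (I : Ideal (𝓞 K)) : ℝ) ^ (-s) with ht
  have h1 : ∀ I : (Ideal (𝓞 K))⁰, X (ClassGroup.mk0 I) * ((t I : ℝ) : ℂ) =
      ∑ C, X C * (((Set.indicator {I | ClassGroup.mk0 I = C} t I : ℝ)) : ℂ) := by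
    intro I
    rw [Finset.sum_eq_single (ClassGroup.mk0 I)]
    · simp
    · intro C _ hC
      have : I ∉ {I : (Ideal (𝓞 K))⁰ | ClassGroup.mk0 I = C} := fun h => hC h.symm
      simp [Set.indicator_of_notMem this]
    · simp
  have hind : ∀ C : ClassGroup (𝓞 K),
      Summable (Set.indicator {I : (Ideal (𝓞 K))⁰ | ClassGroup.mk0 I = C} t) :=
    fun C => hsum.indicator _
  have hC : ∀ C : ClassGroup (𝓞 K), HasSum
      (fun I => X C * (((Set.indicator {I | ClassGroup.mk0 I = C} t I : ℝ)) : ℂ))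
      (X C * (partialZeta K C s : ℂ)) := by
    intro C
    refine HasSum.mul_left _ ?_
    have : partialZeta K C s = ∑' I, Set.indicator {I | ClassGroup.mk0 I = C} t I := by
      rw [partialZeta, ← tsum_subtype]
      rfl
    rw [this]
    exact Complex.hasSum_ofReal.mpr (hind C).hasSum
  rw [tsum_congr h1]
  exact (hasSum_sum fun C _ => hC C).tsum_eq

theorem classLSeries_bounded (X : ClassGroup (𝓞 K) → ℂ) (hX : ∑ C, X C = 0) :
    ∃ B : ℝ, ∀ s : ℝ, 1 < s → s ≤ 2 →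
      ‖∑' I : (Ideal (𝓞 K))⁰, X (ClassGroup.mk0 I) *
        (((absNorm (I : Ideal (𝓞 K)) : ℝ) ^ (-s) : ℝ) : ℂ)‖ ≤ B := by
  choose B hB using partialZeta_sub_one_bounded K
  refine ⟨∑ C, ‖X C‖ * B C, fun s hs hs2 => ?_⟩
  rw [tsum_class_eq K X hs]
  have : ∑ C, X C * (partialZeta K C s : ℂ) =
      ∑ C, X C * ((partialZeta K C s - partialZeta K 1 s : ℝ) : ℂ) := by
    have h0 : ∑ C, X C * (partialZeta K 1 s : ℂ) = 0 := by
      rw [← Finset.sum_mul, hX, zero_mul]
    rw [← sub_zero (∑ C, X C * (partialZeta K C s : ℂ)), ← h0, ← Finset.sum_sub_distrib]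
    refine Finset.sum_congr rfl fun C _ => ?_
    push_cast; ring
  rw [this]
  refine (norm_sum_le _ _).trans (Finset.sum_le_sum fun C _ => ?_)
  rw [norm_mul, Complex.norm_real, Real.norm_eq_abs]
  exact mul_le_mul_of_nonneg_left (hB C s hs hs2) (norm_nonneg _)

end Fermat.Agent.S14.ClassZeta
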