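import Fermat.Agent.S14.ClassZeta.Defs

/-!
# S14 / C3 : the sum over principal ideals divisible by `J`
(definition shared by `ClassZeta/Unfold.lean` and `ClassZeta/ClassPrin.lean`)
-/

set_option autoImplicit false

namespace Fermat.Agent.S14.ClassZeta

open NumberField Ideal nonZeroDivisors

variable (K : Type*) [Field K] [NumberField K]

/-- sum over the nonzero principal ideals divisible by `J`. -/
noncomputable def prinSum (J : (Ideal (𝓞 K))⁰) (s : ℝ) : ℝ :=
  ∑' I : {I : (Ideal (𝓞 K))⁰ // (J : Ideal (𝓞 K)) ∣ I ∧ (I : Ideal (𝓞 K)).IsPrincipal},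
    (absNorm (I.1 : Ideal (𝓞 K)) : ℝ) ^ (-s)

end Fermat.Agent.S14.ClassZeta
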