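import Fermat.Agent.S14.ClassZeta.Defs

/-!
# S14 / C3 / Z1 : the tent function (pure real analysis)
Owner: helper21.
-/

set_option autoImplicit false

namespace Fermat.Agent.S14.ClassZeta

theorem tent_nonneg (t : ℝ) : 0 ≤ tent t := le_max_left _ _

theorem tent_le_one (t : ℝ) : tent t ≤ 1 := by
  unfold tent
  exact max_le zero_le_one (by linarith [abs_nonneg t])

theorem tent_eq_zero {t : ℝ} (ht : 1 ≤ |t|) : tent t = 0 := by
  unfold tent
  exact max_eq_left (by linarith)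

theorem abs_tent_sub_le (a b : ℝ) : |tent a - tent b| ≤ |a - b| := by
  unfold tent
  calc |max 0 (1 - |a|) - max 0 (1 - |b|)| ≤ |(1 - |a|) - (1 - |b|)| := by
        rw [max_comm 0 (1 - |a|), max_comm 0 (1 - |b|)]
        exact abs_max_sub_max_le_abs _ _ _
    _ = |(|b| - |a|)| := by congr 1; ring
    _ ≤ |b - a| := abs_abs_sub_abs_le_abs_sub b a
    _ = |a - b| := abs_sub_comm b a

namespace Tent

theorem tent_of_nonneg_le {t : ℝ} (h0 : 0 ≤ t) (h1 : t ≤ 1) : tent t = 1 - t := by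
  unfold tent
  rw [abs_of_nonneg h0]
  exact max_eq_right (by linarith)

theorem tent_of_nonpos_ge {t : ℝ} (h0 : t ≤ 0) (h1 : -1 ≤ t) : tent t = 1 + t := by
  unfold tent
  rw [abs_of_nonpos h0]
  rw [max_eq_right (by linarith)]
  ring

/-- the two-element support -/
theorem tent_add_eq_zero (t : ℝ) (k : ℤ) (hk : k ∉ ({-⌊t⌋, -⌊t⌋ - 1} : Finset ℤ)) :
    tent (t + k) = 0 := by
  apply tent_eq_zero
  simp only [Finset.mem_insert, Finset.mem_singleton, not_or] at hk
  obtain ⟨h1, h2⟩ := hk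
  have hf0 := Int.floor_le t
  have hf1 := Int.lt_floor_add_one t
  rcases lt_or_gt_of_ne h1 with h | h
  · -- k < -⌊t⌋, and k ≠ -⌊t⌋ - 1, so k ≤ -⌊t⌋ - 2
    have h3 : k ≤ -⌊t⌋ - 2 := by omega
    have h4 : (k : ℝ) ≤ -(⌊t⌋ : ℝ) - 2 := by exact_mod_cast h3
    rw [le_abs]; right; linarith
  · have h3 : -⌊t⌋ + 1 ≤ k := by omega
    have h4 : -(⌊t⌋ : ℝ) + 1 ≤ (k : ℝ) := by exact_mod_cast h3
    rw [le_abs]; left; linarith

theorem sum_tent (t : ℝ) : ∑ k ∈ ({-⌊t⌋, -⌊t⌋ - 1} : Finset ℤ), tent (t + k) = 1 := by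
  have hf0 := Int.floor_le t
  have hf1 := Int.lt_floor_add_one t
  rw [Finset.sum_pair (by omega)]
  push_cast
  rw [tent_of_nonneg_le (by linarith) (by linarith), tent_of_nonpos_ge (by linarith) (by linarith)]
  ring

end Tent

open Tent

theorem hasSum_tent (t : ℝ) : HasSum (fun k : ℤ => tent (t + k)) 1 := by
  have h : HasSum (fun k : ℤ => tent (t + k))
      (∑ k ∈ ({-⌊t⌋, -⌊t⌋ - 1} : Finset ℤ), tent (t + k)) :=
    hasSum_sum_of_ne_finset_zero (fun k hk => tent_add_eq_zero t k hk)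
  rwa [sum_tent] at h

theorem hasSum_prod_tent {ι : Type*} [Fintype ι] (c : ι → ℝ) :
    HasSum (fun e : ι → ℤ => ∏ i, tent (c i + e i)) 1 := by
  classical
  have h : HasSum (fun e : ι → ℤ => ∏ i, tent (c i + e i))
      (∑ e ∈ Fintype.piFinset (fun i => ({-⌊c i⌋, -⌊c i⌋ - 1} : Finset ℤ)),
        ∏ i, tent (c i + e i)) :=
    hasSum_sum_of_ne_finset_zero (by
      intro e he
      rw [Fintype.mem_piFinset] at he
      simp only [not_forall] at he
      obtain ⟨i, hi⟩ := he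
      exact Finset.prod_eq_zero (Finset.mem_univ i) (tent_add_eq_zero (c i) (e i) hi))
  have h2 : ∑ e ∈ Fintype.piFinset (fun i => ({-⌊c i⌋, -⌊c i⌋ - 1} : Finset ℤ)),
      ∏ i, tent (c i + e i) = 1 := by
    rw [← Finset.prod_univ_sum (fun i => ({-⌊c i⌋, -⌊c i⌋ - 1} : Finset ℤ))
      (fun i (k : ℤ) => tent (c i + k))]
    exact Finset.prod_eq_one (fun i _ => sum_tent (c i))
  rwa [h2] at h

namespace Tent

theorem abs_prod_sub_le {ι : Type*} (s : Finset ι) (a b : ι → ℝ) :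
    |∏ i ∈ s, tent (a i) - ∏ i ∈ s, tent (b i)| ≤ ∑ i ∈ s, |a i - b i| := by
  classical
  induction s using Finset.induction_on with
  | empty => simp
  | insert i s hi ih =>
    rw [Finset.prod_insert hi, Finset.prod_insert hi, Finset.sum_insert hi]
    have hA0 : 0 ≤ ∏ j ∈ s, tent (a j) := Finset.prod_nonneg (fun j _ => tent_nonneg _)
    have hA1 : ∏ j ∈ s, tent (a j) ≤ 1 :=
      Finset.prod_le_one (fun j _ => tent_nonneg _) (fun j _ => tent_le_one _)
    have hb0 := tent_nonneg (b i)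
    have hb1 := tent_le_one (b i)
    have key : tent (a i) * ∏ j ∈ s, tent (a j) - tent (b i) * ∏ j ∈ s, tent (b j)
        = (tent (a i) - tent (b i)) * ∏ j ∈ s, tent (a j)
          + tent (b i) * (∏ j ∈ s, tent (a j) - ∏ j ∈ s, tent (b j)) := by ring
    rw [key]
    calc |(tent (a i) - tent (b i)) * ∏ j ∈ s, tent (a j)
          + tent (b i) * (∏ j ∈ s, tent (a j) - ∏ j ∈ s, tent (b j))|
        ≤ |(tent (a i) - tent (b i)) * ∏ j ∈ s, tent (a j)|
          + |tent (b i) * (∏ j ∈ s, tent (a j) - ∏ j ∈ s, tent (b j))| := abs_add_le _ _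
      _ = |tent (a i) - tent (b i)| * ∏ j ∈ s, tent (a j)
          + tent (b i) * |∏ j ∈ s, tent (a j) - ∏ j ∈ s, tent (b j)| := by
          rw [abs_mul, abs_mul, abs_of_nonneg hA0, abs_of_nonneg hb0]
      _ ≤ |tent (a i) - tent (b i)| * 1
          + 1 * |∏ j ∈ s, tent (a j) - ∏ j ∈ s, tent (b j)| := by
          gcongr
      _ ≤ |a i - b i| + ∑ j ∈ s, |a j - b j| := by
          rw [mul_one, one_mul]
          exact add_le_add (abs_tent_sub_le _ _) ih

theorem one_le_three (c : ℝ) (hc : |c| ≤ 1) :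
    1 ≤ ∑ k ∈ ({-1, 0, 1} : Finset ℤ), tent (c + k) := by
  rw [Finset.sum_insert (by decide), Finset.sum_pair (by decide)]
  push_cast
  obtain ⟨h1, h2⟩ := abs_le.mp hc
  rcases le_total 0 c with h | h
  · rw [tent_of_nonpos_ge (t := c + -1) (by linarith) (by linarith),
      tent_of_nonneg_le (t := c + 0) (by linarith) (by linarith)]
    have := tent_nonneg (c + 1)
    linarith
  · rw [tent_of_nonpos_ge (t := c + 0) (by linarith) (by linarith),
      tent_of_nonneg_le (t := c + 1) (by linarith) (by linarith)]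
    have := tent_nonneg (c + -1)
    linarith

end Tent

theorem abs_prod_tent_sub_le {ι : Type*} [Fintype ι] (a b : ι → ℝ) :
    |∏ i, tent (a i) - ∏ i, tent (b i)| ≤ ∑ i, |a i - b i| :=
  abs_prod_sub_le Finset.univ a b

theorem one_le_sum_prod_tent {ι : Type*} [Fintype ι] [DecidableEq ι] (c : ι → ℝ)
    (hc : ∀ i, |c i| ≤ 1) :
    1 ≤ ∑ e ∈ Fintype.piFinset (fun _ : ι => ({-1, 0, 1} : Finset ℤ)),
      ∏ i, tent (c i + e i) := by
  rw [← Finset.prod_univ_sum (fun _ : ι => ({-1, 0, 1} : Finset ℤ))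
    (fun i (k : ℤ) => tent (c i + k))]
  calc (1 : ℝ) = ∏ _i : ι, (1 : ℝ) := by simp
    _ ≤ ∏ i, ∑ k ∈ ({-1, 0, 1} : Finset ℤ), tent (c i + k) :=
        Finset.prod_le_prod (fun _ _ => zero_le_one) (fun i _ => one_le_three (c i) (hc i))

end Fermat.Agent.S14.ClassZeta
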