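import Fermat.Agent.S14.ClassZeta.Tent

/-!
# S14 / C3 / Z2 : the coordinates `cc` under units, and `∑_u W (u x) = torsionOrder`.
Owner: helper122.
-/

set_option autoImplicit false

namespace Fermat.Agent.S14.ClassZeta

open NumberField NumberField.Units NumberField.mixedEmbedding NumberField.InfinitePlace
open Ideal nonZeroDivisors

variable (K : Type*) [Field K] [NumberField K]

/-- the unit with exponent vector `e` in the fundamental system. -/
noncomputable def unitOf (e : Fin (rank K) → ℤ) : (𝓞 K)ˣ := ∏ i, fundSystem K i ^ e i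

theorem norm_mixedEmbedding_ne_zero {x : K} (hx : x ≠ 0) :
    mixedEmbedding.norm (mixedEmbedding K x) ≠ 0 := by
  rw [norm_eq_norm]
  simpa using hx

theorem cc_mul {x y : K} (hx : x ≠ 0) (hy : y ≠ 0) (i : Fin (rank K)) :
    cc K (x * y) i = cc K x i + cc K y i := by
  unfold cc
  rw [map_mul, logMap_mul (norm_mixedEmbedding_ne_zero K hx) (norm_mixedEmbedding_ne_zero K hy),
    map_add]
  rfl

theorem cc_unit (u : (𝓞 K)ˣ) (i : Fin (rank K)) :
    cc K ((u : 𝓞 K) : K) i = (logBasis K).repr (logEmbedding K (Additive.ofMul u)) i := by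
  unfold cc
  rw [logMap_eq_logEmbedding]

theorem cc_torsion {ζ : (𝓞 K)ˣ} (hζ : ζ ∈ torsion K) (i : Fin (rank K)) :
    cc K ((ζ : 𝓞 K) : K) i = 0 := by
  rw [cc_unit, dirichletUnitTheorem.logEmbedding_eq_zero_iff.mpr hζ]
  simp

theorem cc_unitOf (e : Fin (rank K) → ℤ) (i : Fin (rank K)) :
    cc K ((unitOf K e : 𝓞 K) : K) i = e i := by
  rw [cc_unit]
  have h : logEmbedding K (Additive.ofMul (unitOf K e)) = ∑ j, (e j : ℝ) • logBasis K j := by
    unfold unitOf logBasis
    rw [ofMul_prod, map_sum]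
    refine Finset.sum_congr rfl fun j _ => ?_
    rw [ofMul_zpow, map_zsmul, basisOfIsMaxRank_apply, Int.cast_smul_eq_zsmul]
  rw [h, Module.Basis.repr_sum_self]

/-- The parametrisation of the units by `torsion × ℤ^r`. -/
noncomputable def unitsEquiv : (torsion K × (Fin (rank K) → ℤ)) ≃ (𝓞 K)ˣ :=
  Equiv.ofBijective (fun ζe => (ζe.1 : (𝓞 K)ˣ) * unitOf K ζe.2) <| by
    rw [Function.bijective_iff_existsUnique]
    intro u
    obtain ⟨ζe, h1, h2⟩ := exist_unique_eq_mul_prod K u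
    exact ⟨ζe, h1.symm, fun y hy => h2 y hy.symm⟩

theorem unitsEquiv_apply (ζe : torsion K × (Fin (rank K) → ℤ)) :
    unitsEquiv K ζe = (ζe.1 : (𝓞 K)ˣ) * unitOf K ζe.2 := rfl

theorem W_unitsEquiv_mul {x : K} (hx : x ≠ 0) (ζe : torsion K × (Fin (rank K) → ℤ)) :
    W K (((unitsEquiv K ζe : 𝓞 K) : K) * x) = ∏ i, tent (cc K x i + ζe.2 i) := by
  unfold W
  refine Finset.prod_congr rfl fun i _ => ?_
  have h1 : (((ζe.1 : (𝓞 K)ˣ) : 𝓞 K) : K) ≠ 0 := by simp
  have h2 : ((unitOf K ζe.2 : 𝓞 K) : K) ≠ 0 := by simp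
  rw [unitsEquiv_apply, Units.val_mul, RingOfIntegers.coe_eq_algebraMap, map_mul,
    ← RingOfIntegers.coe_eq_algebraMap, ← RingOfIntegers.coe_eq_algebraMap,
    cc_mul K (mul_ne_zero h1 h2) hx, cc_mul K h1 h2,
    cc_torsion K ζe.1.2, cc_unitOf, zero_add, add_comm]

theorem hasSum_one_torsion : HasSum (fun _ : torsion K => (1 : ℝ)) (torsionOrder K) := by
  have : Fintype (torsion K) := Fintype.ofFinite _
  have := hasSum_fintype (fun _ : torsion K => (1 : ℝ))
  simpa [torsionOrder, Nat.card_eq_fintype_card] using this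

theorem hasSum_torsion_prod (g : (Fin (rank K) → ℤ) → ℝ) (hnn : ∀ e, 0 ≤ g e) (h1 : HasSum g 1) :
    HasSum (fun ζe : torsion K × (Fin (rank K) → ℤ) => g ζe.2) (torsionOrder K) := by
  have h0 := hasSum_one_torsion K
  have h2 := h0.mul h1 (h0.summable.mul_of_nonneg h1.summable (fun _ => zero_le_one) hnn)
  rw [mul_one] at h2
  simpa using h2

/-- `hasSum_W_units`, with the partition-of-unity property of `tent` as a hypothesis. -/
theorem hasSum_W_units_of
    (hT : ∀ c : Fin (rank K) → ℝ, HasSum (fun e : Fin (rank K) → ℤ => ∏ i, tent (c i + e i)) 1)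
    {x : K} (hx : x ≠ 0) :
    HasSum (fun u : (𝓞 K)ˣ => W K (((u : 𝓞 K) : K) * x)) (torsionOrder K) := by
  have h2 := hasSum_torsion_prod K (fun e => ∏ i, tent (cc K x i + e i))
    (fun e => Finset.prod_nonneg fun i _ => le_max_left _ _) (hT (cc K x))
  refine (unitsEquiv K).hasSum_iff.mp (h2.congr_fun fun ζe => ?_)
  exact W_unitsEquiv_mul K hx ζe

theorem hasSum_W_units {x : K} (hx : x ≠ 0) :
    HasSum (fun u : (𝓞 K)ˣ => W K (((u : 𝓞 K) : K) * x)) (torsionOrder K) :=
  hasSum_W_units_of K (fun c => hasSum_prod_tent c) hx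

end Fermat.Agent.S14.ClassZeta
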